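import Mathlib
import Fermat.Prelude.Def_ModularCurve_ArithmeticGalois
import Fermat.Agent.GAL.FF.ZeroDeg
import Fermat.Agent.S24.Mod.Degree
import Fermat.Agent.Lib.FrobeniusExists

/-!
# S17, weak Mordell-Weil, block (c): every point of `J₀(N)(ℚ̄)` has an open stabiliser
-/

set_option autoImplicit false

namespace Fermat.Agent.S17.WM

open AlgebraicCurve ModularCurve Fermat.Agent.S24.FF

local notation "Qbar" => AlgebraicClosure ℚ
local notation "GQ" => (AlgebraicClosure ℚ ≃ₐ[ℚ] AlgebraicClosure ℚ)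

variable (F₀ : IntermediateField ℚ (LaurentSeries ℚ))

/-- every Laurent series in `ℚ̄ F₀` is fixed by an open subgroup. -/
theorem smooth_coeffMap {x : LaurentSeries Qbar} (hx : x ∈ laurentBaseChange Qbar F₀) :
    ∃ E : IntermediateField ℚ Qbar, FiniteDimensional ℚ E ∧
      ∀ σ : GQ, σ ∈ E.fixingSubgroup → coeffMap (σ : Qbar →+* Qbar) x = x := by
  have hgal : IsGalois ℚ Qbar := Fermat.Agent.Lib.FrobeniusExists.isGalois_algebraicClosure_rat
  rw [mem_laurentBaseChange_iff] at hx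
  induction hx using Subfield.closure_induction with
  | mem y hy =>
    rcases hy with ⟨a, rfl⟩ | ⟨z, hz, rfl⟩
    · refine ⟨IntermediateField.adjoin ℚ {a},
        IntermediateField.adjoin.finiteDimensional (IsGalois.integral ℚ a), ?_⟩
      intro σ hσ
      rw [coeffMap_algebraMap]
      congr 1
      exact (IntermediateField.mem_fixingSubgroup_iff _ _).1 hσ a
        (IntermediateField.mem_adjoin_simple_self ℚ a)
    · exact ⟨⊥, inferInstance, fun σ _ => coeffMap_coeffEmb σ z⟩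
  | one => exact ⟨⊥, inferInstance, fun σ _ => map_one _⟩
  | add x y _ _ hx hy =>
    obtain ⟨E, hE, h⟩ := hx
    obtain ⟨E', hE', h'⟩ := hy
    refine ⟨E ⊔ E', IntermediateField.finiteDimensional_sup E E', fun σ hσ => ?_⟩
    rw [IntermediateField.fixingSubgroup_sup] at hσ
    rw [map_add, h σ hσ.1, h' σ hσ.2]
  | neg x _ hx =>
    obtain ⟨E, hE, h⟩ := hx
    exact ⟨E, hE, fun σ hσ => by rw [map_neg, h σ hσ]⟩
  | inv x _ hx =>
    obtain ⟨E, hE, h⟩ := hx
    exact ⟨E, hE, fun σ hσ => by rw [map_inv₀, h σ hσ]⟩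
  | mul x y _ _ hx hy =>
    obtain ⟨E, hE, h⟩ := hx
    obtain ⟨E', hE', h'⟩ := hy
    refine ⟨E ⊔ E', IntermediateField.finiteDimensional_sup E E', fun σ hσ => ?_⟩
    rw [IntermediateField.fixingSubgroup_sup] at hσ
    rw [map_mul, h σ hσ.1, h' σ hσ.2]

/-- every function is fixed by an open subgroup. -/
theorem smooth_function (f : laurentBaseChange Qbar F₀) :
    ∃ E : IntermediateField ℚ Qbar, FiniteDimensional ℚ E ∧
      ∀ σ : GQ, σ ∈ E.fixingSubgroup → arithmeticGalois F₀ σ • f = f := by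
  obtain ⟨E, hE, h⟩ := smooth_coeffMap F₀ f.2
  exact ⟨E, hE, fun σ hσ => Subtype.ext (h σ hσ)⟩

/-- every place is fixed by an open subgroup. -/
theorem smooth_place [IsFF1 Qbar (laurentBaseChange Qbar F₀)]
    (v : Place Qbar (laurentBaseChange Qbar F₀)) :
    ∃ E : IntermediateField ℚ Qbar, FiniteDimensional ℚ E ∧
      ∀ σ : GQ, σ ∈ E.fixingSubgroup → arithmeticGalois F₀ σ • v = v := by
  classical
  obtain ⟨f, hf⟩ := exists_ord_eq_one v
  have hfin := Fermat.Agent.GAL.FF.finite_support_ord (K := Qbar) f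
  obtain ⟨z, _, hzv, hzW⟩ := Fermat.Agent.GAL.FF.exists_ord_eq_and_ge v (hfin.toFinset.erase v)
    (Finset.notMem_erase v _) (-1) 0
  obtain ⟨E, hE, h⟩ := smooth_function F₀ f
  obtain ⟨E', hE', h'⟩ := smooth_function F₀ z
  refine ⟨E ⊔ E', IntermediateField.finiteDimensional_sup E E', fun σ hσ => ?_⟩
  rw [IntermediateField.fixingSubgroup_sup] at hσ
  have h1 := SemilinearAut.ord_smul (arithmeticGalois F₀ σ) v f
  have h2 := SemilinearAut.ord_smul (arithmeticGalois F₀ σ) v z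
  rw [h σ hσ.1, hf] at h1
  rw [h' σ hσ.2, hzv] at h2
  generalize arithmeticGalois F₀ σ • v = w at h1 h2 ⊢
  by_contra hne
  have hw : w ∈ hfin.toFinset.erase v := by
    refine Finset.mem_erase.mpr ⟨hne, ?_⟩
    rw [Set.Finite.mem_toFinset]
    show w.ord f ≠ 0
    rw [h1]
    exact one_ne_zero
  have h3 : (0 : ℤ) ≤ w.ord z := hzW w hw
  omega

/-- every divisor is fixed by an open subgroup. -/
theorem smooth_divisor [IsFF1 Qbar (laurentBaseChange Qbar F₀)]
    (D : Divisor Qbar (laurentBaseChange Qbar F₀)) :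
    ∃ E : IntermediateField ℚ Qbar, FiniteDimensional ℚ E ∧
      ∀ σ : GQ, σ ∈ E.fixingSubgroup → arithmeticGalois F₀ σ • D = D := by
  induction D using Finsupp.induction_linear with
  | zero => exact ⟨⊥, inferInstance, fun σ _ => smul_zero _⟩
  | add x y hx hy =>
    obtain ⟨E, hE, h⟩ := hx
    obtain ⟨E', hE', h'⟩ := hy
    refine ⟨E ⊔ E', IntermediateField.finiteDimensional_sup E E', fun σ hσ => ?_⟩
    rw [IntermediateField.fixingSubgroup_sup] at hσ
    rw [smul_add, h σ hσ.1, h' σ hσ.2]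
  | single v n =>
    obtain ⟨E, hE, h⟩ := smooth_place F₀ v
    exact ⟨E, hE, fun σ hσ => by rw [SemilinearAut.smul_single, h σ hσ]⟩

/-- every divisor class of degree `0` is fixed by an open subgroup. -/
theorem smooth_pic0 [IsFF1 Qbar (laurentBaseChange Qbar F₀)]
    (Q : Pic0 Qbar (laurentBaseChange Qbar F₀)) :
    ∃ E : IntermediateField ℚ Qbar, FiniteDimensional ℚ E ∧
      ∀ σ ∈ E.fixingSubgroup, σ • Q = Q := by
  obtain ⟨D, rfl⟩ := Pic0.mk_surjective Q
  obtain ⟨E, hE, h⟩ := smooth_divisor F₀ (D : Divisor Qbar (laurentBaseChange Qbar F₀))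
  refine ⟨E, hE, fun σ hσ => ?_⟩
  rw [galois_smul_pic0_def, SemilinearAut.pic0_smul_mk]
  congr 1
  apply Subtype.ext
  rw [SemilinearAut.coe_degZeroSMulHom, h σ hσ]

/-- **WM (c)**: `hsmooth` of `NF.weakMW_abstract` for `J₀(N)`. -/
theorem jzero_smooth (N : ℕ) [NeZero N] (Q : JZero N) :
    ∃ E : IntermediateField ℚ Qbar, FiniteDimensional ℚ E ∧
      ∀ σ ∈ E.fixingSubgroup, σ • Q = Q :=
  haveI : IsFF1 Qbar (laurentBaseChange Qbar (modularFunctionFieldFull N)) :=
    Fermat.Agent.S24.instIsFF1FN N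
  smooth_pic0 (modularFunctionFieldFull N) Q

end Fermat.Agent.S17.WM
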