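import Fermat.Agent.S17.WM.Inertia
import Fermat.Agent.S17.WM.Smooth
import Fermat.Agent.S17.NF.Descent
import Fermat.Agent.S17.Top
import Fermat.Agent.FFDiv.Main
import Fermat.Agent.S27.H.Main
import Fermat.Agent.S27.B.Lefschetz
import Fermat.Agent.GAL.KLC.Main

/-!
# S17 / WM : the weak Mordell-Weil theorem for `J₀(N)` (direct route, independent of S37; hedge for `WeakMW.lean`)
-/

set_option autoImplicit false

namespace Fermat.Agent.S17.WM

open ModularCurve AlgebraicCurve Fermat.Agent.GAL Fermat.Agent.S24.FF Fermat.Agent.S27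

/-- (b) `J₀(N)[n]` is finite. -/
theorem finite_torsion (N : ℕ) [NeZero N] (n : ℕ) (hn : 0 < n) :
    {R : JZero N | n • R = 0}.Finite := by
  have hcard := card_torsion_of_complex (fun Fc _ _ _ n hn => card_torsion_complex Fc n hn)
    Qb (FL Qb N) n hn
  have hfin : Finite (Pic0.torsion Qb (FL Qb N) n) :=
    Nat.finite_of_card_ne_zero (by rw [hcard]; exact pow_ne_zero _ hn.ne')
  have : {R : JZero N | n • R = 0} = (Pic0.torsion Qb (FL Qb N) n : Set (JZero N)) := by
    ext R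
    rw [Set.mem_ofPred_eq, SetLike.mem_coe, Pic0.mem_torsion, natCast_zsmul]
  rw [this]
  exact Set.toFinite _

/-- **Weak Mordell-Weil** from the key lemma. -/
theorem weakMW_of_keyLemma (hK : KeyLemmaStatement) (N : ℕ) [NeZero N] (n : ℕ) (hn : 0 < n) :
    WeakMW N n := by
  refine NF.weakMW_abstract (J := JZero N) n hn (finite_torsion N n hn)
    (fun P _ => FFDiv.pic0_divisible Qb (FL Qb N) n hn P) (jzero_smooth N)
    (n * N).primeFactors ?_
  intro Q hQ ℓ hℓ hℓT A hA σ hσ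
  have hnN : n * N ≠ 0 := Nat.mul_ne_zero hn.ne' (NeZero.ne N)
  have hnd : ¬ ℓ ∣ n * N := fun hd => hℓT (Nat.mem_primeFactors.mpr ⟨hℓ, hd, hnN⟩)
  exact inertia_fixes hK N n hn.ne' hℓ (fun hd => hnd (hd.mul_left n))
    (fun hd => hnd (hd.mul_right N)) A hA σ hσ Q hQ

/-- **Weak Mordell-Weil** for `J₀(N)`. -/
theorem weakMW_direct (N : ℕ) [NeZero N] (n : ℕ) (hn : 0 < n) : WeakMW N n :=
  weakMW_of_keyLemma KLC.keyLemma N n hn

end Fermat.Agent.S17.WM
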