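import Fermat.Agent.S27.B.Descend
import Fermat.Prelude.Def_AlgebraicCurve_BaseChangeGalois

/-!
# S17 / WM (weak Mordell-Weil), package (d1): a canonical representative of a divisor class

`x ∈ Pic⁰(F)`, `v₀` a place.  Let `r ≥ 0` be minimal with `l(D₀ + r v₀) ≠ 0` (`x = [D₀]`).  Then
`l(D₀ + r v₀) = 1`, `E = D₀ + r v₀ + div f` is the unique effective divisor in its class and
`D = E - r v₀` is fixed by every semilinear automorphism fixing `v₀` and `x`.
-/

set_option autoImplicit false

namespace Fermat.Agent.S17.WM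

open AlgebraicCurve Fermat.Agent.S24.FF Fermat.Agent.S27

variable {K F : Type*} [Field K] [Field F] [Algebra K F]

/-- the action on classes is induced by the action on divisors. -/
theorem smul_cls (g : SemilinearAut K F) (D : Divisor K F) : g • cls D = cls (g • D) := by
  by_cases h : Divisor.degree D = 0
  · have h2 : Divisor.degree (g • D) = 0 := by rw [SemilinearAut.degree_smul, h]
    rw [cls_of_degree h, cls_of_degree h2, SemilinearAut.pic0_smul_mk]
    rfl
  · have h2 : Divisor.degree (g • D) ≠ 0 := by rw [SemilinearAut.degree_smul]; exact h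
    rw [cls_of_degree_ne h, cls_of_degree_ne h2]
    exact smul_zero (A := Pic0 K F) g

/-- `g • div f = div (g f)`. -/
theorem smul_eq_ord (g : SemilinearAut K F) {D : Divisor K F} {f : F}
    (h : ∀ v : Place K F, D v = v.ord f) (v : Place K F) : (g • D) v = v.ord (g • f) := by
  rw [SemilinearAut.divisor_smul_apply, h (g⁻¹ • v)]
  have h2 := SemilinearAut.ord_smul g (g⁻¹ • v) f
  rw [smul_inv_smul] at h2
  exact h2.symm

/-- **(d1)** canonical representative. -/
theorem exists_stable_divisor [IsAlgClosed K] [CharZero K] [IsFF1 K F] (v₀ : Place K F)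
    (x : Pic0 K F) :
    ∃ D : Divisor K F, Divisor.degree D = 0 ∧ cls D = x ∧
      ∀ g : SemilinearAut K F, g • v₀ = v₀ → g • x = x → g • D = D := by
  classical
  obtain ⟨D₀, hD₀, rfl⟩ := cls_surjective x
  -- the minimal `r`
  have hex : ∃ r : ℕ, ell (D₀ + Finsupp.single v₀ (r : ℤ)) ≠ 0 := by
    refine ⟨genusFF K F, ?_⟩
    have h1 := ell_sub_hh1 (D₀ + Finsupp.single v₀ ((genusFF K F : ℕ) : ℤ))
    rw [map_add, hD₀, Divisor.degree_single, deg_eq_one] at h1
    have h2 : (0 : ℤ) ≤ hh1 (D₀ + Finsupp.single v₀ ((genusFF K F : ℕ) : ℤ)) :=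
      Int.natCast_nonneg _
    intro h0
    rw [h0] at h1
    push_cast at h1
    omega
  set r := Nat.find hex with hr
  have hr1 : ell (D₀ + Finsupp.single v₀ (r : ℤ)) ≠ 0 := Nat.find_spec hex
  have hr0 : ell (D₀ + Finsupp.single v₀ (r : ℤ) - Finsupp.single v₀ 1) = 0 := by
    rcases Nat.eq_zero_or_pos r with h0 | h0
    · apply ell_eq_zero_of_degree_neg
      rw [map_sub, map_add, hD₀, Divisor.degree_single, Divisor.degree_single, deg_eq_one, h0]
      norm_num
    · have h1 : ¬ ell (D₀ + Finsupp.single v₀ ((r - 1 : ℕ) : ℤ)) ≠ 0 :=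
        Nat.find_min hex (by omega)
      rw [not_not] at h1
      rw [add_sub_assoc, ← Finsupp.single_sub]
      have h2 : ((r : ℤ) - 1) = ((r - 1 : ℕ) : ℤ) := by
        rw [Nat.cast_sub h0]; norm_num
      rw [h2]; exact h1
  have hell : ell (D₀ + Finsupp.single v₀ (r : ℤ)) = 1 := by
    have := desc_ell_le_ell_sub_single_add_one (D₀ + Finsupp.single v₀ (r : ℤ)) v₀
    omega
  set D₁ : Divisor K F := D₀ + Finsupp.single v₀ (r : ℤ) with hD₁
  have hne : riemannRochSpace D₁ ≠ ⊥ := by
    intro h'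
    unfold ell at hell
    rw [h', finrank_bot] at hell
    omega
  obtain ⟨f, hf, hf0⟩ := Submodule.exists_mem_ne_zero_of_ne_bot hne
  set E : Divisor K F := D₁ + GAL.FF.divOf K f with hE
  have hEnonneg : ∀ v, 0 ≤ E v := by
    intro v
    exact (GAL.FF.mem_L_iff_divOf hf0).1 hf v
  -- `L(E) = K`
  have hLE : ∀ u : F, u ∈ riemannRochSpace E → u ∈ Set.range (algebraMap K F) := by
    intro u hu
    rcases eq_or_ne u 0 with rfl | hu0
    · exact ⟨0, map_zero _⟩
    have huf : u * f ∈ riemannRochSpace D₁ := by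
      rw [mem_riemannRochSpace_iff] at hu ⊢
      intro v
      right
      have h1 := (hu v).resolve_left hu0
      rw [hE, Finsupp.add_apply, GAL.FF.divOf_apply] at h1
      rw [v.ord_mul hu0 hf0]
      omega
    obtain ⟨a, ha⟩ := (finrank_eq_one_iff_of_nonzero' (⟨f, hf⟩ : riemannRochSpace D₁)
      (by simpa [Subtype.ext_iff] using hf0)).1 hell ⟨u * f, huf⟩
    have ha' : a • f = u * f := congrArg Subtype.val ha
    rw [Algebra.smul_def] at ha'
    exact ⟨a, mul_right_cancel₀ hf0 ha'⟩
  have hdeg : Divisor.degree (E - Finsupp.single v₀ (r : ℤ)) = 0 := by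
    rw [hE, hD₁, map_sub, map_add, map_add, GAL.FF.degree_divOf, hD₀]
    ring
  refine ⟨E - Finsupp.single v₀ (r : ℤ), hdeg, ?_, ?_⟩
  · rw [cls_eq_iff hdeg hD₀]
    refine ⟨f, hf0, fun v => ?_⟩
    rw [hE, hD₁]
    simp only [Finsupp.sub_apply, Finsupp.add_apply, GAL.FF.divOf_apply]
    ring
  · intro g hg hx
    have hcl : cls (E - Finsupp.single v₀ (r : ℤ)) = cls D₀ := by
      rw [cls_eq_iff hdeg hD₀]
      refine ⟨f, hf0, fun v => ?_⟩
      rw [hE, hD₁]
      simp only [Finsupp.sub_apply, Finsupp.add_apply, GAL.FF.divOf_apply]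
      ring
    rw [← hcl, smul_cls] at hx
    have hdeg' : Divisor.degree (g • (E - Finsupp.single v₀ (r : ℤ))) = 0 := by
      rw [SemilinearAut.degree_smul, hdeg]
    obtain ⟨u, hu0, hu⟩ := (cls_eq_iff hdeg' hdeg).1 hx
    have hgE : ∀ v, (g • E) v - E v = v.ord u := by
      intro v
      rw [← hu v, smul_sub, SemilinearAut.smul_single, hg]
      simp only [Finsupp.sub_apply]
      ring
    have huL : u ∈ riemannRochSpace E := by
      rw [mem_riemannRochSpace_iff]
      intro v
      right
      have h1 := hgE v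
      have h2 : 0 ≤ (g • E) v := by
        rw [SemilinearAut.divisor_smul_apply]; exact hEnonneg _
      omega
    obtain ⟨a, rfl⟩ := hLE u huL
    have hEE : g • E = E := by
      ext v
      have h1 := hgE v
      rw [ord_algebraMap] at h1
      omega
    rw [smul_sub, SemilinearAut.smul_single, hg, hEE]

end Fermat.Agent.S17.WM
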