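import Fermat.Agent.GR.GaussRed
import Fermat.Agent.GAL.Defs

/-!
# S17 / WM (weak Mordell-Weil), package (d2): Gauss normalisation INSIDE the function field

Refinement of `GR.exists_hasRed_C_mul_of_mem_FL`: numerator and denominator lie in `FL Qb M`.
-/

set_option autoImplicit false

namespace Fermat.Agent.S17.WM

open ModularCurve HahnSeries Fermat.Agent.GAL

/-- the generators of `FL Qb M`. -/
def Norm_T (M : ℕ) : Set (LaurentSeries Qb) :=
  Set.range (algebraMap Qb (LaurentSeries Qb)) ∪ (⇑(coeffEmb Qb) '' divisorExpansions M)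

theorem Norm_T_subset_FL (M : ℕ) : Norm_T M ⊆ (FL Qb M : Set (LaurentSeries Qb)) := by
  rintro _ (⟨c, rfl⟩ | ⟨y, hy, rfl⟩)
  · exact (FL Qb M).algebraMap_mem c
  · exact coeffEmb_mem_laurentBaseChange Qb (IntermediateField.subset_adjoin ℚ _ hy)

theorem Norm_T_subset (M : ℕ) : Norm_T M ⊆
    Set.range (algebraMap Qb (LaurentSeries Qb)) ∪ Set.range (GR.intS Qb) := by
  rintro _ (⟨c, rfl⟩ | ⟨_, ⟨d, hd, _, rfl⟩, rfl⟩)
  · exact Or.inl ⟨c, rfl⟩
  · exact Or.inr ⟨_, (GR.coeffEmb_qExpand_jq d).symm⟩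

theorem Norm_coeffEmb_mem (M : ℕ) {y : LaurentSeries ℚ} (hy : y ∈ modularFunctionFieldFull M) :
    coeffEmb Qb y ∈ Subfield.closure (Norm_T M) := by
  have hy' : y ∈ Subfield.closure
      (Set.range (algebraMap ℚ (LaurentSeries ℚ)) ∪ divisorExpansions M) := hy
  have hle : Subfield.closure
      (Set.range (algebraMap ℚ (LaurentSeries ℚ)) ∪ divisorExpansions M) ≤
        (Subfield.closure (Norm_T M)).comap (coeffEmb Qb) := by
    rw [Subfield.closure_le]
    rintro _ (⟨r, rfl⟩ | hz)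
    · show coeffEmb Qb (algebraMap ℚ (LaurentSeries ℚ) r) ∈ Subfield.closure (Norm_T M)
      apply Subfield.subset_closure
      left
      refine ⟨algebraMap ℚ Qb r, ?_⟩
      rw [algebraMap_laurentSeries_eq_single, algebraMap_laurentSeries_eq_single, coeffEmb,
        coeffMap_single]
    · exact Subfield.subset_closure (Or.inr ⟨_, hz, rfl⟩)
  exact hle hy'

theorem Norm_FL_le (M : ℕ) {x : LaurentSeries Qb} (hx : x ∈ FL Qb M) :
    x ∈ Subfield.closure (Norm_T M) := by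
  rw [mem_laurentBaseChange_iff] at hx
  have hle : Subfield.closure (Set.range (algebraMap Qb (LaurentSeries Qb)) ∪
      (⇑(coeffEmb Qb) '' (modularFunctionFieldFull M : Set (LaurentSeries ℚ)))) ≤
      Subfield.closure (Norm_T M) := by
    rw [Subfield.closure_le]
    rintro _ (⟨c, rfl⟩ | ⟨y, hy, rfl⟩)
    · exact Subfield.subset_closure (Or.inl ⟨c, rfl⟩)
    · exact Norm_coeffEmb_mem M hy
  exact hle hx

theorem Norm_closure_le_FL (M : ℕ) {x : LaurentSeries Qb}
    (hx : x ∈ Subring.closure (Norm_T M)) : x ∈ FL Qb M := by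
  have hle : Subring.closure (Norm_T M) ≤ (FL Qb M).toSubfield.toSubring := by
    rw [Subring.closure_le]
    exact Norm_T_subset_FL M
  exact hle hx

/-- **(d2)** every `u ≠ 0` of `FL Qb M` is, up to a constant, a quotient `P / Q` of two series with
coefficients in `A`, lying in `FL Qb M`, with nonzero reductions. -/
theorem exists_normalised (A : ValuationSubring Qb) (M : ℕ) {u : LaurentSeries Qb}
    (hu : u ∈ FL Qb M) (hu0 : u ≠ 0) :
    ∃ (c : Qb) (P Q : LaurentSeries A), c ≠ 0 ∧ inclA A P ∈ FL Qb M ∧ inclA A Q ∈ FL Qb M ∧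
      redA A P ≠ 0 ∧ redA A Q ≠ 0 ∧ HahnSeries.C c * u * inclA A Q = inclA A P := by
  obtain ⟨P0, hP, Q0, hQ, rfl⟩ := Subfield.mem_closure_iff.mp (Norm_FL_le M hu)
  have hP0 : P0 ≠ 0 := by rintro rfl; simp at hu0
  have hQ0 : Q0 ≠ 0 := by rintro rfl; simp at hu0
  obtain ⟨c₁, hc₁, y₁, hy₁, hr₁⟩ := GR.exists_normalize A
    (GR.subring_closure_le_PSer (Subring.closure_mono (Norm_T_subset M) hP)) hP0
  obtain ⟨c₂, hc₂, y₂, hy₂, hr₂⟩ := GR.exists_normalize A
    (GR.subring_closure_le_PSer (Subring.closure_mono (Norm_T_subset M) hQ)) hQ0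
  have hC : ∀ c : Qb, (HahnSeries.C c : LaurentSeries Qb) ∈ FL Qb M := by
    intro c
    rw [← GR.algebraMap_eq_C]
    exact (FL Qb M).algebraMap_mem c
  have e₁ : inclA A y₁ = HahnSeries.C c₁ * P0 := by
    rw [HahnSeries.C_mul_eq_smul]; exact hy₁
  have e₂ : inclA A y₂ = HahnSeries.C c₂ * Q0 := by
    rw [HahnSeries.C_mul_eq_smul]; exact hy₂
  refine ⟨c₁ / c₂, y₁, y₂, div_ne_zero hc₁ hc₂, ?_, ?_, hr₁, hr₂, ?_⟩
  · rw [e₁]
    exact mul_mem (hC c₁) (Norm_closure_le_FL M hP)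
  · rw [e₂]
    exact mul_mem (hC c₂) (Norm_closure_le_FL M hQ)
  · rw [e₁, e₂, map_div₀]
    have h2 : (HahnSeries.C c₂ : LaurentSeries Qb) ≠ 0 := by
      rw [Ne, map_eq_zero]; exact hc₂
    field_simp

end Fermat.Agent.S17.WM
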