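import Fermat.Agent.S17.WM.Stable
import Fermat.Agent.S17.WM.Norm
import Fermat.Agent.S18.ChainKL

/-!
# S17 / WM (weak Mordell-Weil), (d3): inertia at `ℓ ∤ nN` fixes the `n`-division points of
rational points of `J₀(N)`

`n y = [D]` with `D` Galois stable (`Stable.lean`), `y = [E]`, `n E = D + div h`.  For `τ` in the
inertia group of `A ∣ ℓ`: `W = c τh / h` is a quotient of two integral series of `FL Qb N` with the
same nonzero reduction (`Norm.lean`), and `div W = n (τE - E)`; the key lemma at level `N`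
(`S18.keyLemma_of_adm`) gives `W = w ^ n`, i.e. `τE - E = div w`.
-/
set_option autoImplicit false

namespace Fermat.Agent.S17.WM

open ModularCurve AlgebraicCurve HahnSeries Fermat.Agent.GAL Fermat.Agent.S24.FF Fermat.Agent.S27

/-- the semilinear automorphism of `FL Qb N` attached to `σ`. -/
noncomputable abbrev gal (N : ℕ) (σ : GQ) : SemilinearAut Qb (FL Qb N) :=
  arithmeticGalois (modularFunctionFieldFull N) σ

theorem coe_gal_smul (N : ℕ) (σ : GQ) (x : FL Qb N) :
    ((gal N σ • x : FL Qb N) : LaurentSeries Qb) = galS σ (x : LaurentSeries Qb) := rfl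

theorem order_galS (σ : GQ) (x : LaurentSeries Qb) : (galS σ x).order = x.order := by
  by_cases hx : x = 0
  · rw [hx, map_zero]
  have hx' : galS σ x ≠ 0 :=
    GR.coeffMap_ne_zero_of_injective (RingHom.injective _) hx
  apply le_antisymm
  · apply HahnSeries.order_le_of_coeff_ne_zero
    rw [galS, coeffMap_coeff]
    exact (map_ne_zero _).mpr (HahnSeries.coeff_order_eq_zero.not.mpr hx)
  · apply HahnSeries.order_le_of_coeff_ne_zero
    have := HahnSeries.coeff_order_eq_zero.not.mpr hx'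
    rw [galS, coeffMap_coeff] at this
    exact (map_ne_zero _).mp this

/-- the place `q = 0` is fixed by Galois. -/
theorem gal_smul_infty (N : ℕ) (v : Place Qb (FL Qb N))
    (hv : ∀ x : FL Qb N, x ≠ 0 → v.ord x = (x : LaurentSeries Qb).order) (σ : GQ) :
    gal N σ • v = v := by
  apply place_ext_of_ord_nonneg
  intro f hf
  have h := SemilinearAut.ord_smul (gal N σ) v ((gal N σ)⁻¹ • f)
  rw [smul_inv_smul] at h
  have hf' : (gal N σ)⁻¹ • f ≠ 0 := by
    intro h0
    apply hf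
    have := congrArg (fun z => gal N σ • z) h0
    simpa using this
  rw [h, hv _ hf', hv _ hf]
  have h2 := order_galS σ (((gal N σ)⁻¹ • f : FL Qb N) : LaurentSeries Qb)
  rw [← coe_gal_smul, smul_inv_smul] at h2
  rw [h2]


/-- the key lemma at level `N`, applied to `τ h / h`. -/
theorem exists_pow_eq_inertia (hK : KeyLemmaStatement) (N : ℕ) [NeZero N] (n : ℕ) (hn : n ≠ 0)
    {ℓ : ℕ} (hℓ : ℓ.Prime) (hℓN : ¬ ℓ ∣ N) (hℓn : ¬ ℓ ∣ n) (A : ValuationSubring Qb)
    (hA : A.LiesOverPrime ℓ) (τ : GQ) (hτ : τ ∈ A.inertiaSubgroupIn ℚ) (h : FL Qb N) (h0 : h ≠ 0)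
    (hdiv : ∀ v : Place Qb (FL Qb N), (n : ℤ) ∣ v.ord (gal N τ • h / h)) :
    ∃ (c : Qb) (w : FL Qb N), c ≠ 0 ∧ w ^ n = algebraMap Qb (FL Qb N) c * (gal N τ • h / h) := by
  have : Fact ℓ.Prime := ⟨hℓ⟩
  have hkey : S18.KeyLemma A N n :=
    S18.keyLemma_of_adm A ℓ n hℓ hn
      (fun M hM0 hM hℓM => S18.klExport_of_keyLemmaStatement hK ℓ A hA M n hM0 hM hℓM hℓn) N hℓN
  have h0' : (h : LaurentSeries Qb) ≠ 0 := fun e => h0 (Subtype.ext e)
  obtain ⟨c, P, Q, hc, hP, hQ, hrP, hrQ, hPQ⟩ := exists_normalised A N h.2 h0'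
  obtain ⟨hd, hred⟩ := GR.red_decompHom_of_inertia hτ
  set s : LaurentSeries A →+* LaurentSeries A := coeffMap (GR.decompHom τ hd) with hs
  have hincl : ∀ y, inclA A (s y) = galS τ (inclA A y) := GR.incl_decompHom τ hd
  have hreds : ∀ y, redA A (s y) = redA A y := hred
  have hgalmem : ∀ {x : LaurentSeries Qb}, x ∈ FL Qb N → galS τ x ∈ FL Qb N := fun {x} hx =>
    (gal N τ • (⟨x, hx⟩ : FL Qb N)).2
  -- numerator `τP * Q`, denominator `τQ * P`
  have hnum : inclA A (s P * Q) ∈ FL Qb N := by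
    rw [map_mul, hincl]; exact mul_mem (hgalmem hP) hQ
  have hden : inclA A (s Q * P) ∈ FL Qb N := by
    rw [map_mul, hincl]; exact mul_mem (hgalmem hQ) hP
  have hτc : τ c ≠ 0 := (map_ne_zero τ).mpr hc
  set W : FL Qb N := algebraMap Qb (FL Qb N) (τ c / c) * (gal N τ • h / h) with hW
  have hCc : ∀ a : Qb, ((algebraMap Qb (FL Qb N) a : FL Qb N) : LaurentSeries Qb) = HahnSeries.C a :=
    fun a => GR.algebraMap_eq_C a
  have hC0 : (HahnSeries.C c : LaurentSeries Qb) ≠ 0 := by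
    rw [Ne, map_eq_zero]; exact hc
  have hQ0 : inclA A Q ≠ 0 := by
    intro e
    apply hrQ
    rw [S18.inclA_injective A (e.trans (map_zero _).symm), map_zero]
  have hP0 : inclA A P ≠ 0 := by
    intro e
    apply hrP
    rw [S18.inclA_injective A (e.trans (map_zero _).symm), map_zero]
  have hτPQ : HahnSeries.C (τ c) * galS τ (h : LaurentSeries Qb) * galS τ (inclA A Q)
      = galS τ (inclA A P) := by
    have hgC : galS τ (HahnSeries.C c) = HahnSeries.C (τ c) := coeffMap_single _ _ _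
    rw [← hPQ, map_mul, map_mul, hgC]
  have hWeq : (W : LaurentSeries Qb) * inclA A (s Q * P) = inclA A (s P * Q) := by
    have e1 : (W : LaurentSeries Qb)
        = HahnSeries.C (τ c / c) * (galS τ (h : LaurentSeries Qb) / (h : LaurentSeries Qb)) := by
      rw [hW, IntermediateField.coe_mul, IntermediateField.coe_div, hCc, coe_gal_smul]
    rw [e1, map_mul, map_mul, hincl, hincl, ← hτPQ, ← hPQ, map_div₀]
    field_simp
  obtain ⟨w, hw⟩ := hkey W (s P * Q) (s Q * P) hnum hden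
    (by rw [map_mul, hreds]; exact mul_ne_zero hrQ hrP)
    (by rw [map_mul, map_mul, hreds, hreds, mul_comm]) hWeq
    (fun v => by
      have hne : gal N τ • h / h ≠ 0 := div_ne_zero (by simpa using h0) h0
      rw [hW, v.ord_mul (by
        rw [Ne, map_eq_zero]; exact div_ne_zero hτc hc) hne, ord_algebraMap, zero_add]
      exact hdiv v)
  exact ⟨τ c / c, w, div_ne_zero hτc hc, hw⟩

/-- **(d3)** inertia at `ℓ ∤ nN` fixes the `n`-division points of rational points. -/
theorem inertia_fixes (hK : KeyLemmaStatement) (N : ℕ) [NeZero N] (n : ℕ) (hn : n ≠ 0)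
    {ℓ : ℕ} (hℓ : ℓ.Prime) (hℓN : ¬ ℓ ∣ N) (hℓn : ¬ ℓ ∣ n) (A : ValuationSubring Qb)
    (hA : A.LiesOverPrime ℓ) (τ : GQ) (hτ : τ ∈ A.inertiaSubgroupIn ℚ) (y : JZero N)
    (hy : ∀ σ : GQ, σ • (n • y) = n • y) : τ • y = y := by
  obtain ⟨vinf, hvinf⟩ := S18.exists_placeInfty N
  obtain ⟨D, hD0, hDx, hDst⟩ := exists_stable_divisor vinf (n • y)
  have hτD : gal N τ • D = D := hDst (gal N τ) (gal_smul_infty N vinf hvinf τ) (hy τ)
  obtain ⟨E, hE0, rfl⟩ := cls_surjective y
  have hnE0 : Divisor.degree (n • E) = 0 := by rw [map_nsmul, hE0, smul_zero]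
  have h1 : cls (n • E) = cls D := by rw [cls_nsmul hE0, hDx]
  rw [cls_eq_iff hnE0 hD0] at h1
  obtain ⟨h, h0, hh⟩ := h1
  have h2 : ∀ v, (gal N τ • (n • E - D)) v = v.ord (gal N τ • h) :=
    smul_eq_ord (gal N τ) (fun v => by rw [Finsupp.sub_apply]; exact hh v)
  have hτh0 : gal N τ • h ≠ 0 := by simpa using h0
  have h3 : ∀ v : Place Qb (FL Qb N),
      (n : ℤ) * ((gal N τ • E) v - E v) = v.ord (gal N τ • h / h) := by
    intro v
    have e1 := h2 v
    rw [smul_sub, hτD, smul_comm, Finsupp.sub_apply, Finsupp.smul_apply] at e1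
    have e2 := hh v
    rw [Finsupp.smul_apply] at e2
    rw [div_eq_mul_inv, v.ord_mul hτh0 (inv_ne_zero h0), v.ord_inv, ← e1, ← e2]
    simp only [nsmul_eq_mul]
    ring
  obtain ⟨c, w, hc, hw⟩ := exists_pow_eq_inertia hK N n hn hℓ hℓN hℓn A hA τ hτ h h0
    (fun v => ⟨_, (h3 v).symm⟩)
  have hne : gal N τ • h / h ≠ 0 := div_ne_zero hτh0 h0
  have hc' : algebraMap Qb (FL Qb N) c ≠ 0 := by rw [Ne, map_eq_zero]; exact hc
  have hw0 : w ≠ 0 := by
    rintro rfl
    rw [zero_pow hn] at hw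
    exact mul_ne_zero hc' hne hw.symm
  change gal N τ • cls E = cls E
  rw [smul_cls, cls_eq_iff (by rw [SemilinearAut.degree_smul, hE0]) hE0]
  refine ⟨w, hw0, fun v => ?_⟩
  have e3 := congrArg v.ord hw
  rw [ord_pow, v.ord_mul hc' hne, ord_algebraMap, zero_add, ← h3 v] at e3
  have hn' : (n : ℤ) ≠ 0 := by exact_mod_cast hn
  exact (mul_left_cancel₀ hn' e3).symm

end Fermat.Agent.S17.WM
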