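import Fermat.Agent.S37.Main

/-!
# S17 / WM / Unr : inertia at `ℓ ∤ n N` fixes the `n`-division points of rational points of `J₀(N)`

Immediate from the kernel of reduction of `S37` (`exists_levelKernel`): `σ • Q - Q` lies in the
kernel of reduction for every point `Q` and every `σ` in the inertia group, it is killed by `n`,
and the kernel of reduction has no `n`-torsion.
-/

set_option autoImplicit false

open ModularCurve AlgebraicCurve

namespace Fermat.Agent.S17.WM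

open Fermat.Agent.S24 Fermat.Agent.S37

/-- clause (d) of the weak Mordell–Weil chain. -/
theorem hunr (hKL : Fermat.Agent.GAL.KeyLemmaStatement) (hGR : GoodRedStatement) (N n : ℕ)
    [NeZero N] (Q : JZero N) (σ : GQ) (hQ : σ • (n • Q) = n • Q) (ℓ : ℕ) (hℓ : ℓ.Prime)
    (hℓN : ¬ ℓ ∣ N * n) (A : ValuationSubring Kb) (hA : A.LiesOverPrime ℓ)
    (hσ : σ ∈ A.inertiaSubgroupIn ℚ) : σ • Q = Q := by
  have : NeZero ℓ := ⟨hℓ.ne_zero⟩
  obtain ⟨K, hK⟩ := exists_levelKernel hKL hGR N n ℓ hℓ hℓN A hA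
  have h1 := hK.torsion _ (hK.inertia σ hσ Q) ⟨1, by
    rw [pow_one, nsmul_sub, sub_eq_zero, ← hQ]
    exact (map_nsmul (DistribSMul.toAddMonoidHom (JZero N) σ) n Q).symm⟩
  exact sub_eq_zero.mp h1

/-- the same, from the constant term contract alone. -/
theorem hunr_of_ct (hCT : CTContract) (N n : ℕ)
    [NeZero N] (Q : JZero N) (σ : GQ) (hQ : σ • (n • Q) = n • Q) (ℓ : ℕ) (hℓ : ℓ.Prime)
    (hℓN : ¬ ℓ ∣ N * n) (A : ValuationSubring Kb) (hA : A.LiesOverPrime ℓ)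
    (hσ : σ ∈ A.inertiaSubgroupIn ℚ) : σ • Q = Q :=
  hunr (keyLemmaStatement_of_ct hCT) (goodRedStatement_of_ct hCT) N n Q σ hQ ℓ hℓ hℓN A hA hσ

/-- in the shape of `S17.NF.weakMW_abstract`, with `T` the set of primes dividing `N * n`. -/
theorem hunr_primeFactors (hKL : Fermat.Agent.GAL.KeyLemmaStatement) (hGR : GoodRedStatement)
    (N n : ℕ) [NeZero N] (hn : 0 < n) :
    ∀ Q : JZero N, (∀ σ : GQ, σ • (n • Q) = n • Q) → ∀ ℓ : ℕ, ℓ.Prime →
      ℓ ∉ (N * n).primeFactors → ∀ A : ValuationSubring Kb, A.LiesOverPrime ℓ →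
      ∀ σ ∈ A.inertiaSubgroupIn ℚ, σ • Q = Q := by
  intro Q hQ ℓ hℓ hT A hA σ hσ
  refine hunr hKL hGR N n Q σ (hQ σ) ℓ hℓ (fun h => hT ?_) A hA hσ
  exact Nat.mem_primeFactors.mpr ⟨hℓ, h, Nat.mul_ne_zero (NeZero.ne N) hn.ne'⟩

end Fermat.Agent.S17.WM
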