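import Fermat.Agent.S17.Top
import Fermat.Agent.S17.NF.Descent
import Fermat.Agent.S17.WM.Smooth
import Fermat.Agent.S17.WM.Unr
import Fermat.Agent.FFDiv.Main
import Fermat.Agent.S27.H.Main
import Fermat.Agent.GAL.KLC.Main

/-!
# S17 / WM / WeakMW : the weak Mordell–Weil theorem for `J₀(N)`, unconditionally

`J₀(N)(ℚ) / n J₀(N)(ℚ)` is finite for every `N ≠ 0`, `n > 0`.
-/

set_option autoImplicit false

open ModularCurve AlgebraicCurve

namespace Fermat.Agent.S17.WM

open Fermat.Agent.S24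

/-- the constant term contract of `S37` is a theorem. -/
theorem ctContract : Fermat.Agent.S37.CTContract :=
  fun M ℓ _ hM hℓ hℓM A hA => Fermat.Agent.GAL.KLC.ctStatement M ℓ hM hℓ hℓM A hA

/-- (b) : `J₀(N)[n]` is finite. -/
theorem jzero_torsion_finite (N n : ℕ) [NeZero N] (hn : 0 < n) :
    {R : JZero N | n • R = 0}.Finite := by
  have hcard : Nat.card (Pic0.torsion Kb (FN N) n) = n ^ (2 * genusFF Kb (FN N)) :=
    Fermat.Agent.S27.card_torsion_of_complex
      (fun Fc _ _ _ n hn => Fermat.Agent.S27.card_torsion_complex Fc n hn) Kb (FN N) n hn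
  have hfin : Finite (Pic0.torsion Kb (FN N) n) :=
    Nat.finite_of_card_ne_zero (by rw [hcard]; exact (pow_pos hn _).ne')
  have hset : {R : JZero N | n • R = 0} = ((Pic0.torsion Kb (FN N) n : AddSubgroup _) : Set _) := by
    ext R
    rw [Set.mem_ofPred_eq, SetLike.mem_coe, Pic0.mem_torsion, natCast_zsmul]
  rw [hset]
  exact Set.toFinite _

/-- (a) : `J₀(N)(ℚ̄)` is divisible. -/
theorem jzero_divisible (N n : ℕ) [NeZero N] (hn : 0 < n) (P : JZero N) :
    ∃ Q : JZero N, n • Q = P :=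
  Fermat.Agent.FFDiv.pic0_divisible Kb (FN N) n hn P

/-- (d) : inertia outside `N n` fixes the `n`-division points of rational points. -/
theorem jzero_unr (N n : ℕ) [NeZero N] (hn : 0 < n) :
    ∀ Q : JZero N, (∀ σ : GQ, σ • (n • Q) = n • Q) → ∀ ℓ : ℕ, ℓ.Prime →
      ℓ ∉ (N * n).primeFactors → ∀ A : ValuationSubring Kb, A.LiesOverPrime ℓ →
      ∀ σ ∈ A.inertiaSubgroupIn ℚ, σ • Q = Q :=
  hunr_primeFactors Fermat.Agent.GAL.KLC.keyLemma
    (Fermat.Agent.S37.goodRedStatement_of_ct ctContract) N n hn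

/-- **Weak Mordell–Weil** for `J₀(N)`. -/
theorem weakMW (N n : ℕ) [NeZero N] (hn : 0 < n) : WeakMW N n :=
  Fermat.Agent.S17.NF.weakMW_abstract (J := JZero N) n hn (jzero_torsion_finite N n hn)
    (fun P _ => jzero_divisible N n hn P) (jzero_smooth N) (N * n).primeFactors (jzero_unr N n hn)

end Fermat.Agent.S17.WM
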